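import Mathlib

/-!
# S20, package H (backup, helper2): the final counting lemma

Pure finite combinatorics: from the weights `a x ∈ {0, 2, 4, 6, 8, 10}` of a frame, the counts of
weights divisible by `4` and by `6`, the count of weights `0` and the relation coming from the
Eisenstein part in weight `24`, the number of weights equal to `10` is the genus expression.

`d k` stands for `dim M_k(SL(2, ℤ))`.
-/

set_option autoImplicit false

namespace Fermat.Agent.S20.H2

open Finset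

/-- The values of `a x` allowed by `0 ≤ a x ≤ 10` and evenness. -/
theorem weight_cases {v : ℤ} (h : 0 ≤ v ∧ v ≤ 10 ∧ Even v) :
    v = 0 ∨ v = 2 ∨ v = 4 ∨ v = 6 ∨ v = 8 ∨ v = 10 := by
  obtain ⟨h0, h10, r, hr⟩ := h
  omega

/-- The pointwise identity behind the final count. -/
theorem pointwise (d : ℤ → ℕ)
    (hdneg : ∀ k : ℤ, k < 0 → d k = 0) (hd0 : d 0 = 1)
    (hd12 : d 12 = 2) (hd14 : d 14 = 1) (hd16 : d 16 = 2) (hd18 : d 18 = 2) (hd20 : d 20 = 2)
    (hd22 : d 22 = 2) (hd24 : d 24 = 3) {v : ℤ} [Decidable ((4 : ℤ) ∣ v)] [Decidable ((6 : ℤ) ∣ v)]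
    (hv : v = 0 ∨ v = 2 ∨ v = 4 ∨ v = 6 ∨ v = 8 ∨ v = 10) :
    (12 : ℤ) * (d (2 + v - 12) : ℤ) =
      12 * (d (0 - v) : ℤ) + 6 - 6 * (if (4 : ℤ) ∣ v then 1 else 0)
        - 6 * (if (6 : ℤ) ∣ v then 1 else 0) - 6 * (d (24 - v) : ℤ)
        + 6 * (d (24 + v - 12) : ℤ) := by
  rcases hv with rfl | rfl | rfl | rfl | rfl | rfl
  · have e1 : d (2 + 0 - 12) = 0 := hdneg _ (by norm_num)
    have e2 : d (0 - 0) = 1 := by simpa using hd0
    have e3 : d (24 - 0) = 3 := by simpa using hd24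
    have e4 : d (24 + 0 - 12) = 2 := by norm_num; exact hd12
    rw [e1, e2, e3, e4, if_pos (by norm_num), if_pos (by norm_num)]; norm_num
  · have e1 : d (2 + 2 - 12) = 0 := hdneg _ (by norm_num)
    have e2 : d (0 - 2) = 0 := hdneg _ (by norm_num)
    have e3 : d (24 - 2) = 2 := by norm_num; exact hd22
    have e4 : d (24 + 2 - 12) = 1 := by norm_num; exact hd14
    rw [e1, e2, e3, e4, if_neg (by norm_num), if_neg (by norm_num)]; norm_num
  · have e1 : d (2 + 4 - 12) = 0 := hdneg _ (by norm_num)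
    have e2 : d (0 - 4) = 0 := hdneg _ (by norm_num)
    have e3 : d (24 - 4) = 2 := by norm_num; exact hd20
    have e4 : d (24 + 4 - 12) = 2 := by norm_num; exact hd16
    rw [e1, e2, e3, e4, if_pos (by norm_num), if_neg (by norm_num)]; norm_num
  · have e1 : d (2 + 6 - 12) = 0 := hdneg _ (by norm_num)
    have e2 : d (0 - 6) = 0 := hdneg _ (by norm_num)
    have e3 : d (24 - 6) = 2 := by norm_num; exact hd18
    have e4 : d (24 + 6 - 12) = 2 := by norm_num; exact hd18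
    rw [e1, e2, e3, e4, if_neg (by norm_num), if_pos (by norm_num)]; norm_num
  · have e1 : d (2 + 8 - 12) = 0 := hdneg _ (by norm_num)
    have e2 : d (0 - 8) = 0 := hdneg _ (by norm_num)
    have e3 : d (24 - 8) = 2 := by norm_num; exact hd16
    have e4 : d (24 + 8 - 12) = 2 := by norm_num; exact hd20
    rw [e1, e2, e3, e4, if_pos (by norm_num), if_neg (by norm_num)]; norm_num
  · have e1 : d (2 + 10 - 12) = 1 := by norm_num; exact hd0
    have e2 : d (0 - 10) = 0 := hdneg _ (by norm_num)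
    have e3 : d (24 - 10) = 1 := by norm_num; exact hd14
    have e4 : d (24 + 10 - 12) = 2 := by norm_num; exact hd22
    rw [e1, e2, e3, e4, if_neg (by norm_num), if_neg (by norm_num)]; norm_num

/-- **Final counting lemma** (abstract form).  `X` is the (finite) index set of a frame, `a x` the
weights, `d k` the dimension of the space of level-one forms of weight `k`. -/
theorem final_count {X : Type*} [Fintype X] (a : X → ℤ) (d : ℤ → ℕ)
    [DecidablePred fun x => (4 : ℤ) ∣ a x] [DecidablePred fun x => (6 : ℤ) ∣ a x]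
    (ha : ∀ x, 0 ≤ a x ∧ a x ≤ 10 ∧ Even (a x))
    (hdneg : ∀ k : ℤ, k < 0 → d k = 0) (hd0 : d 0 = 1)
    (hd12 : d 12 = 2) (hd14 : d 14 = 1) (hd16 : d 16 = 2) (hd18 : d 18 = 2) (hd20 : d 20 = 2)
    (hd22 : d 22 = 2) (hd24 : d 24 = 3)
    (f2 f3 t : ℕ)
    (h0 : ∑ x, d (0 - a x) = 1)
    (h4 : 2 * (univ.filter fun x => (4 : ℤ) ∣ a x).card = Fintype.card X + f2)
    (h6 : 3 * (univ.filter fun x => (6 : ℤ) ∣ a x).card = Fintype.card X + 2 * f3)
    (hE : ∑ x, d (24 - a x) = ∑ x, d (24 + a x - 12) + t) :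
    ((∑ x, d (2 + a x - 12) : ℕ) : ℚ) =
      1 + (Fintype.card X : ℚ) / 12 - (f2 : ℚ) / 4 - (f3 : ℚ) / 3 - (t : ℚ) / 2 := by
  classical
  -- pointwise identity
  have hpt : ∀ x, (12 : ℤ) * (d (2 + a x - 12) : ℤ) =
      12 * (d (0 - a x) : ℤ) + 6 - 6 * (if (4 : ℤ) ∣ a x then 1 else 0)
        - 6 * (if (6 : ℤ) ∣ a x then 1 else 0) - 6 * (d (24 - a x) : ℤ)
        + 6 * (d (24 + a x - 12) : ℤ) := fun x =>
    pointwise d hdneg hd0 hd12 hd14 hd16 hd18 hd20 hd22 hd24 (weight_cases (ha x))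
  -- sum the pointwise identity
  have hsum : (12 : ℤ) * ∑ x, (d (2 + a x - 12) : ℤ) =
      12 * ∑ x, (d (0 - a x) : ℤ) + 6 * (Fintype.card X : ℤ)
        - 6 * ((univ.filter fun x => (4 : ℤ) ∣ a x).card : ℤ)
        - 6 * ((univ.filter fun x => (6 : ℤ) ∣ a x).card : ℤ)
        - 6 * ∑ x, (d (24 - a x) : ℤ) + 6 * ∑ x, (d (24 + a x - 12) : ℤ) := by
    rw [Finset.mul_sum, Finset.sum_congr rfl (fun x _ => hpt x)]
    simp only [Finset.sum_add_distrib, Finset.sum_sub_distrib, ← Finset.mul_sum, Finset.sum_const,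
      Finset.card_univ, Finset.card_filter, Nat.cast_sum, nsmul_eq_mul]
    push_cast
    ring
  have h0' : ∑ x, (d (0 - a x) : ℤ) = 1 := by exact_mod_cast h0
  have h4' : (2 : ℤ) * ((univ.filter fun x => (4 : ℤ) ∣ a x).card : ℤ) = Fintype.card X + f2 := by
    exact_mod_cast h4
  have h6' : (3 : ℤ) * ((univ.filter fun x => (6 : ℤ) ∣ a x).card : ℤ) =
      Fintype.card X + 2 * f3 := by
    exact_mod_cast h6
  have hE' : ∑ x, (d (24 - a x) : ℤ) = ∑ x, (d (24 + a x - 12) : ℤ) + t := by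
    exact_mod_cast hE
  have hfin : (12 : ℤ) * ∑ x, (d (2 + a x - 12) : ℤ) =
      12 + (Fintype.card X : ℤ) - 3 * f2 - 4 * f3 - 6 * t := by
    rw [hsum, h0', hE']
    linarith
  have hq : (12 : ℚ) * ((∑ x, d (2 + a x - 12) : ℕ) : ℚ) =
      12 + (Fintype.card X : ℚ) - 3 * f2 - 4 * f3 - 6 * t := by
    have := congrArg (fun z : ℤ => (z : ℚ)) hfin
    push_cast at this ⊢
    exact this
  linarith

end Fermat.Agent.S20.H2
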