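import Fermat.Agent.S20.Defs
import Fermat.Agent.S20.H2.FinalArith

/-!
# S20, package H (backup, helper2): the final assembly, modulo the package interfaces

`finrank_cuspForm_two_of_frame` derives the genus formula for `dim S₂(Γ₀(N))` from the statements of
the other S20 packages (in exactly the shapes of the skeleton on `origin/helper20`), which enter as
hypotheses.
-/

set_option autoImplicit false

open UpperHalfPlane ModularForm CongruenceSubgroup Matrix.SpecialLinearGroup Filter
open scoped MatrixGroups ModularForm Manifold Topology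

noncomputable section

namespace Fermat.Agent.S20.H2

variable {N : ℕ} [NeZero N]

/-- The space of weight-zero forms is one-dimensional as soon as all weight-zero forms are
constant. -/
theorem finrank_weight_zero_eq_one
    (hconst : ∀ f : ModularForm (Γ0 N) 0, ∃ c : ℂ, ∀ τ, f τ = c) :
    Module.finrank ℂ (ModularForm (Γ0 N) 0) = 1 := by
  rw [finrank_eq_one_iff_of_nonzero' (1 : ModularForm (Γ0 N) 0)]
  · intro f
    obtain ⟨c, hc⟩ := hconst f
    refine ⟨c, ?_⟩
    ext τ
    simp [hc τ]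
  · intro h
    have := congrArg (fun f : ModularForm (Γ0 N) 0 => f UpperHalfPlane.I) h
    simp at this

/-- **S20, final assembly** from the package interfaces (all taken as hypotheses, in the shapes of
the skeleton): `dim S₂(Γ₀(N))` is the genus formula. -/
theorem finrank_cuspForm_two_of_frame {a : X N → ℤ}
    -- G3 (Decomp)
    (hrange : ∀ x, 0 ≤ a x ∧ a x ≤ 10 ∧ Even (a x))
    (hM : ∀ k : ℤ, Module.finrank ℂ (ModularForm (Γ0 N) k) =
      ∑ x, Module.finrank ℂ (ModularForm 𝒮ℒ (k - a x)))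
    (hS : ∀ k : ℤ, Module.finrank ℂ (CuspForm (Γ0 N) k) =
      ∑ x, Module.finrank ℂ (ModularForm 𝒮ℒ (k + a x - 12)))
    -- G4 (EllipticCount)
    (h4 : 2 * (Finset.univ.filter fun x => (4 : ℤ) ∣ a x).card =
      Nat.card (X N) + Nat.card (MulAction.fixedBy (X N) ModularGroup.S))
    (h6 : 3 * (Finset.univ.filter fun x => (6 : ℤ) ∣ a x).card =
      Nat.card (X N) + 2 * Nat.card (MulAction.fixedBy (X N) (ModularGroup.S * ModularGroup.T)))
    -- JA3 (= H1), at `k = 24`
    (hE : Module.finrank ℂ (ModularForm (Γ0 N) 24) =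
      Module.finrank ℂ (CuspForm (Γ0 N) 24) + Nat.card (Orb N ModularGroup.T))
    -- C13
    (hconst : ∀ f : ModularForm (Γ0 N) 0, ∃ c : ℂ, ∀ τ, f τ = c)
    -- B6, B7 (LevelOne)
    (hL : ∀ m : ℕ, Even m → Module.finrank ℂ (ModularForm 𝒮ℒ (m : ℤ)) =
      if m % 12 = 2 then m / 12 else m / 12 + 1)
    (hLneg : ∀ m : ℤ, m < 0 → Module.finrank ℂ (ModularForm 𝒮ℒ m) = 0)
    -- A1, A2, A3 (combinatorics)
    (hA1 : Nat.card (X N) = ModularCurve.dedekindPsi N)
    (hA2 : Nat.card (MulAction.fixedBy (X N) ModularGroup.S) = ModularCurve.nuTwo N)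
    (hA2' : Nat.card (MulAction.fixedBy (X N) (ModularGroup.S * ModularGroup.T)) =
      ModularCurve.nuThree N)
    (hA3 : Nat.card (Orb N ModularGroup.T) = ModularCurve.cuspCount N) :
    (Module.finrank ℂ (CuspForm (Γ0 N) 2) : ℚ) = ModularCurve.genusFormula N := by
  set d : ℤ → ℕ := fun k => Module.finrank ℂ (ModularForm 𝒮ℒ k) with hd
  have hd0 : d 0 = 1 := (hL 0 ⟨0, rfl⟩).trans (by decide)
  have hd12 : d 12 = 2 := (hL 12 ⟨6, rfl⟩).trans (by decide)
  have hd14 : d 14 = 1 := (hL 14 ⟨7, rfl⟩).trans (by decide)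
  have hd16 : d 16 = 2 := (hL 16 ⟨8, rfl⟩).trans (by decide)
  have hd18 : d 18 = 2 := (hL 18 ⟨9, rfl⟩).trans (by decide)
  have hd20 : d 20 = 2 := (hL 20 ⟨10, rfl⟩).trans (by decide)
  have hd22 : d 22 = 2 := (hL 22 ⟨11, rfl⟩).trans (by decide)
  have hd24 : d 24 = 3 := (hL 24 ⟨12, rfl⟩).trans (by decide)
  have h0 : ∑ x, d (0 - a x) = 1 := by
    rw [← hM 0]; exact finrank_weight_zero_eq_one hconst
  have hcard : Fintype.card (X N) = Nat.card (X N) := (Nat.card_eq_fintype_card).symm
  have h4' : 2 * (Finset.univ.filter fun x => (4 : ℤ) ∣ a x).card =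
      Fintype.card (X N) + Nat.card (MulAction.fixedBy (X N) ModularGroup.S) := by
    rw [hcard]; exact h4
  have h6' : 3 * (Finset.univ.filter fun x => (6 : ℤ) ∣ a x).card =
      Fintype.card (X N) +
        2 * Nat.card (MulAction.fixedBy (X N) (ModularGroup.S * ModularGroup.T)) := by
    rw [hcard]; exact h6
  have hE' : ∑ x, d (24 - a x) = ∑ x, d (24 + a x - 12) + Nat.card (Orb N ModularGroup.T) := by
    rw [← hM 24, ← hS 24]; exact hE
  have key := final_count a d hrange hLneg hd0 hd12 hd14 hd16 hd18 hd20 hd22 hd24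
    _ _ _ h0 h4' h6' hE'
  rw [hS 2, key, hcard, hA1, hA2, hA2', hA3]
  rfl

end Fermat.Agent.S20.H2
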